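import Fermat.Agent.H22.ES.KLSetting2

/-!
# P-ES / KEY LEMMA, row KL-N-C : chart constants (helper95)

`chartConstStatement : Fermat.Agent.H22.KL.ChartConstStatement`: an element of a field `E`
which is integral over `A[x]` and over `A[x⁻¹]` (`A` a discrete valuation ring, `x`
transcendental over `A`) is integral over `A`.

Proof: `A[X]` is a unique factorisation domain, hence integrally closed, so the minimal
polynomial of `z` over `Frac A[X]` (embedded in `E` by `X ↦ x`, resp. by `X ↦ x⁻¹`) has
coefficients in `A[X]`.  The two monic polynomials obtained in `E[T]` divide each other,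
hence are equal, and their coefficients lie in `A[x] ∩ A[x⁻¹] = A`.
-/

set_option autoImplicit false

noncomputable section

namespace Fermat.Agent.H95.KL

open Polynomial

section ConstLemma

variable {A : Type} [CommRing A] [IsDomain A] {E : Type} [Field E] [Algebra A E]

/-- `A[x] ∩ A[x⁻¹] = A`: if `p(x) = q(x⁻¹)` with `x` transcendental then `p` is constant. -/
theorem chartConst_eq_C_of_aeval_eq {x : E} (hx : Transcendental A x) (p q : A[X])
    (h : aeval x p = aeval x⁻¹ q) : p = C (p.coeff 0) := by
  have hinj := transcendental_iff_injective.1 hx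
  have hx0 : x ≠ 0 := by
    rintro rfl
    exact hx isAlgebraic_zero
  let _ : Invertible x⁻¹ := invertibleOfNonzero (inv_ne_zero hx0)
  have hrev := eval₂_reverse_mul_pow (algebraMap A E) x⁻¹ q
  rw [invOf_eq_inv, inv_inv] at hrev
  have hkey : aeval x (X ^ q.natDegree * p) = aeval x q.reverse := by
    rw [map_mul, map_pow, aeval_X, h, aeval_def, aeval_def, ← hrev, inv_pow]
    field_simp
  have hpoly := hinj hkey
  by_cases hp : p = 0
  · simp [hp]
  · have hdeg : (X ^ q.natDegree * p).natDegree = q.natDegree + p.natDegree := by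
      rw [natDegree_mul (pow_ne_zero _ X_ne_zero) hp, natDegree_X_pow]
    have hle := reverse_natDegree_le q
    rw [← hpoly, hdeg] at hle
    exact eq_C_of_natDegree_eq_zero (by omega)

end ConstLemma

section Minpoly

variable {R : Type} [CommRing R] [IsDomain R] [IsIntegrallyClosed R] {E : Type} [Field E]

/-- Over an integrally closed domain `R` embedded in a field `E` by `f`, an `f`-integral
element `z` has a monic annihilating polynomial `P ∈ R[T]` dividing (over `Frac R`) every
polynomial with coefficients in `Frac R` vanishing at `z`. -/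
theorem chartConst_exists_minpoly (f : R →+* E) (hf : Function.Injective f) (z : E)
    (hz : f.IsIntegralElem z) :
    ∃ P : R[X], P.Monic ∧ eval₂ f z P = 0 ∧
      ∀ Q : (FractionRing R)[X], eval₂ (IsFractionRing.lift hf) z Q = 0 →
        P.map (algebraMap R (FractionRing R)) ∣ Q := by
  let _ : Algebra R E := f.toAlgebra
  let _ : Algebra (FractionRing R) E := (IsFractionRing.lift hf).toAlgebra
  have _ : IsScalarTower R (FractionRing R) E :=
    IsScalarTower.of_algebraMap_eq (fun r => (IsFractionRing.lift_algebraMap hf r).symm)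
  have hz' : IsIntegral R z := hz
  refine ⟨minpoly R z, minpoly.monic hz', minpoly.aeval R z, fun Q hQ => ?_⟩
  rw [← minpoly.isIntegrallyClosed_eq_field_fractions' (FractionRing R) hz']
  exact minpoly.dvd (FractionRing R) z hQ

end Minpoly

section Main

variable {A : Type} [CommRing A] {E : Type} [Field E] [Algebra A E]

/-- Membership in the chart closure `B(x)` as integrality over the evaluation map `A[X] → E`. -/
theorem chartConst_isIntegralElem {x z : E}
    (hz : z ∈ Fermat.Agent.H22.KL.chartClosure A E x) :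
    (eval₂RingHom (algebraMap A E) x).IsIntegralElem z := by
  have hz' : IsIntegral (Algebra.adjoin A {x}) z := hz
  obtain ⟨p, hp, hpz⟩ := hz'
  let φ : A[X] →ₐ[A] Algebra.adjoin A {x} :=
    (aeval x).codRestrict (Algebra.adjoin A {x}) (fun q => by
      rw [Algebra.adjoin_singleton_eq_range_aeval]; exact ⟨q, rfl⟩)
  have hφ : Function.Surjective φ.toRingHom := by
    rintro ⟨y, hy⟩
    rw [Algebra.adjoin_singleton_eq_range_aeval] at hy
    obtain ⟨q, rfl⟩ := hy
    exact ⟨q, Subtype.ext rfl⟩
  obtain ⟨q, hq, -, hqm⟩ :=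
    lifts_and_natDegree_eq_and_monic ((mem_lifts p).2 (map_surjective φ.toRingHom hφ p)) hp
  have hcomp : (algebraMap (Algebra.adjoin A {x}) E).comp φ.toRingHom =
      eval₂RingHom (algebraMap A E) x := by
    apply Polynomial.ringHom_ext
    · intro a
      simp [φ]
    · simp [φ]
  rw [← hq, eval₂_map, hcomp] at hpz
  exact ⟨q, hqm, hpz⟩

/-- The key divisibility: the "minimal polynomial in the chart `x`" divides every integral
equation in the chart `y = x⁻¹`. -/
theorem chartConst_dvd [IsDomain A] {x y z : E} (hxy : x * y = 1)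
    (hinj : Function.Injective (eval₂RingHom (algebraMap A E) x)) (P₁ P₂ : A[X][X])
    (h₁ : ∀ Q : (FractionRing A[X])[X], eval₂ (IsFractionRing.lift hinj) z Q = 0 →
      P₁.map (algebraMap A[X] (FractionRing A[X])) ∣ Q)
    (h₂ : eval₂ (eval₂RingHom (algebraMap A E) y) z P₂ = 0) :
    P₁.map (eval₂RingHom (algebraMap A E) x) ∣ P₂.map (eval₂RingHom (algebraMap A E) y) := by
  set f₁ := eval₂RingHom (algebraMap A E) x with hf₁
  set f₂ := eval₂RingHom (algebraMap A E) y with hf₂
  set K := FractionRing A[X] with hK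
  set ι : K →+* E := IsFractionRing.lift hinj with hι
  let g : A[X] →+* K :=
    eval₂RingHom ((algebraMap A[X] K).comp C) (algebraMap A[X] K X)⁻¹
  have hιa : ι.comp (algebraMap A[X] K) = f₁ :=
    RingHom.ext (fun r => IsFractionRing.lift_algebraMap hinj r)
  have hιg : ι.comp g = f₂ := by
    apply Polynomial.ringHom_ext
    · intro a
      have : ι (algebraMap A[X] K (C a)) = f₁ (C a) := IsFractionRing.lift_algebraMap hinj _
      simpa [g, f₁, f₂] using this
    · have hX : ι (algebraMap A[X] K X) = x := by
        have : ι (algebraMap A[X] K X) = f₁ X := IsFractionRing.lift_algebraMap hinj _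
        simpa [f₁] using this
      have : ι (g X) = x⁻¹ := by
        simp [g, hX]
      rw [RingHom.comp_apply, this]
      simp only [f₂, coe_eval₂RingHom, eval₂_X]
      exact (eq_inv_of_mul_eq_one_right hxy).symm
  have hQ : eval₂ ι z (P₂.map g) = 0 := by
    rw [eval₂_map, hιg]; exact h₂
  have hdvd := Polynomial.map_dvd ι (h₁ _ hQ)
  rwa [map_map, map_map, hιa, hιg] at hdvd

end Main

/-- **CHART CONSTANTS** (`Fermat.Agent.H22.KL.ChartConstStatement`). -/
theorem chartConstStatement : Fermat.Agent.H22.KL.ChartConstStatement := by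
  intro A _ _ _ E _ _ _ _ x hx z hz₁ hz₂
  have hx0 : x ≠ 0 := by
    rintro rfl
    exact hx isAlgebraic_zero
  have hxi : Transcendental A x⁻¹ := fun h => hx (IsAlgebraic.inv_iff.1 h)
  have hinj₁ : Function.Injective (eval₂RingHom (algebraMap A E) x) :=
    transcendental_iff_injective.1 hx
  have hinj₂ : Function.Injective (eval₂RingHom (algebraMap A E) x⁻¹) :=
    transcendental_iff_injective.1 hxi
  obtain ⟨P₁, hP₁m, hP₁z, hP₁⟩ :=
    chartConst_exists_minpoly _ hinj₁ z (chartConst_isIntegralElem hz₁)
  obtain ⟨P₂, hP₂m, hP₂z, hP₂⟩ :=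
    chartConst_exists_minpoly _ hinj₂ z (chartConst_isIntegralElem hz₂)
  have hd₁ := chartConst_dvd (mul_inv_cancel₀ hx0) hinj₁ P₁ P₂ hP₁ hP₂z
  have hd₂ := chartConst_dvd (inv_mul_cancel₀ hx0) hinj₂ P₂ P₁ hP₂ hP₁z
  have heq : P₁.map (eval₂RingHom (algebraMap A E) x) =
      P₂.map (eval₂RingHom (algebraMap A E) x⁻¹) :=
    eq_of_monic_of_associated (hP₁m.map _) (hP₂m.map _) (associated_of_dvd_dvd hd₁ hd₂)
  have hcoeff : ∀ n, P₁.coeff n = C ((P₁.coeff n).coeff 0) := by
    intro n
    apply chartConst_eq_C_of_aeval_eq hx (P₁.coeff n) (P₂.coeff n)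
    have := congrArg (fun p => p.coeff n) heq
    simpa [coeff_map, aeval_def] using this
  have hl : P₁ ∈ lifts (C : A →+* A[X]) := by
    rw [lifts_iff_coeff_lifts]
    intro n
    exact ⟨_, (hcoeff n).symm⟩
  obtain ⟨P₀, hP₀⟩ := (mem_lifts _).1 hl
  refine ⟨P₀, monic_of_injective C_injective (hP₀ ▸ hP₁m), ?_⟩
  have h0 : eval₂ (eval₂RingHom (algebraMap A E) x) z (P₀.map C) = 0 := hP₀ ▸ hP₁z
  have hcomp : (eval₂RingHom (algebraMap A E) x).comp C = algebraMap A E := by
    ext a
    simp
  rw [eval₂_map, hcomp] at h0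
  exact h0

end Fermat.Agent.H95.KL
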