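import Fermat.Agent.H91.KLNorm.Interfaces

/-!
# P-ES / KL-NORM-LG: the local-global principle for `B + p C`

`theorem localGlobalStatement : Fermat.Agent.H91.KLNorm.LocalGlobalStatement`.
The set `I` of `g ∈ R` with `g • y ∈ B + p C` is an ideal containing `p` and contained in no
maximal ideal, hence `1 ∈ I`.
-/

namespace Fermat.Agent.H95.KL

open Fermat.Agent.H91.KLNorm

section

variable {R : Type*} [CommRing R] {E : Type*} [Field E] [Algebra R E]

theorem inGaussClosure_zero {p : R} (hp : Prime p) : InGaussClosure R E p (0 : E) :=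
  ⟨1, fun h => hp.not_isUnit (isUnit_of_dvd_one h), by rw [smul_zero]; exact isIntegral_zero⟩

theorem inGaussClosure_add {p : R} (hp : Prime p) {z₁ z₂ : E}
    (h₁ : InGaussClosure R E p z₁) (h₂ : InGaussClosure R E p z₂) :
    InGaussClosure R E p (z₁ + z₂) := by
  obtain ⟨a₁, ha₁, hi₁⟩ := h₁
  obtain ⟨a₂, ha₂, hi₂⟩ := h₂
  refine ⟨a₁ * a₂, fun h => ?_, ?_⟩
  · rcases hp.dvd_or_dvd h with h' | h'
    · exact ha₁ h'
    · exact ha₂ h'
  · have e : (a₁ * a₂) • (z₁ + z₂) = a₂ • (a₁ • z₁) + a₁ • (a₂ • z₂) := by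
      simp only [Algebra.smul_def, map_mul]
      ring
    rw [e]
    exact (IsIntegral.smul a₂ hi₁).add (IsIntegral.smul a₁ hi₂)

theorem inGaussClosure_smul {p : R} (r : R) {z : E} (h : InGaussClosure R E p z) :
    InGaussClosure R E p (r • z) := by
  obtain ⟨a, ha, hi⟩ := h
  refine ⟨a, ha, ?_⟩
  rw [smul_comm]
  exact IsIntegral.smul r hi

end

theorem localGlobalStatement : LocalGlobalStatement := by
  intro R _ _ E _ _ p hp y hloc hy
  -- the ideal `I`
  let I : Ideal R :=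
    { carrier := {g : R | ∃ b z : E, IsIntegral R b ∧ InGaussClosure R E p z ∧ g • y = b + p • z}
      zero_mem' := ⟨0, 0, isIntegral_zero, inGaussClosure_zero hp, by simp⟩
      add_mem' := by
        rintro g₁ g₂ ⟨b₁, z₁, hb₁, hz₁, e₁⟩ ⟨b₂, z₂, hb₂, hz₂, e₂⟩
        refine ⟨b₁ + b₂, z₁ + z₂, hb₁.add hb₂, inGaussClosure_add hp hz₁ hz₂, ?_⟩
        rw [add_smul, e₁, e₂, smul_add]; abel
      smul_mem' := by
        rintro r g ⟨b, z, hb, hz, e⟩
        refine ⟨r • b, r • z, IsIntegral.smul r hb, inGaussClosure_smul r hz, ?_⟩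
        rw [smul_eq_mul, mul_smul, e, smul_add, smul_comm r p z] }
  have hpI : p ∈ I := ⟨0, y, isIntegral_zero, hy, by rw [zero_add]⟩
  have htop : I = ⊤ := by
    by_contra hne
    obtain ⟨𝔪, hmax, hle⟩ := Ideal.exists_le_maximal I hne
    obtain ⟨g, hg, hgI⟩ := hloc 𝔪 hmax (hle hpI)
    exact hg (hle hgI)
  have h1 : (1 : R) ∈ I := by rw [htop]; exact Submodule.mem_top
  obtain ⟨b, z, hb, hz, e⟩ := h1
  exact ⟨b, z, hb, hz, by rw [← e, one_smul]⟩

end Fermat.Agent.H95.KL
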